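import Mathlib

set_option autoImplicit false

namespace Fermat.Agent.S57

open MvPowerSeries

variable {σ : Type*} {R : Type*} [CommRing R]

/-- The ideal of power series all of whose monomials involve some variable from `s`. -/
def vanishIdeal (s : Set σ) : Ideal (MvPowerSeries σ R) where
  carrier := {f | ∀ m : σ →₀ ℕ, (∀ j ∈ s, m j = 0) → coeff m f = 0}
  zero_mem' := fun m _ => by simp
  add_mem' := fun {f g} hf hg m hm => by
    rw [map_add, hf m hm, hg m hm, add_zero]
  smul_mem' := fun c f hf m hm => by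
    classical
    rw [smul_eq_mul, coeff_mul]
    refine Finset.sum_eq_zero ?_
    rintro ⟨a, b⟩ hab
    rw [Finset.HasAntidiagonal.mem_antidiagonal] at hab
    have hb : ∀ j ∈ s, b j = 0 := fun j hj => by
      have h1 := hm j hj
      rw [← hab] at h1
      have h2 : a j + b j = 0 := h1
      omega
    rw [hf b hb, mul_zero]

theorem mem_vanishIdeal {s : Set σ} {f : MvPowerSeries σ R} :
    f ∈ vanishIdeal (R := R) s ↔ ∀ m : σ →₀ ℕ, (∀ j ∈ s, m j = 0) → coeff m f = 0 :=
  Iff.rfl

theorem X_mem_vanishIdeal {s : Set σ} {j : σ} (hj : j ∈ s) :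
    (X j : MvPowerSeries σ R) ∈ vanishIdeal (R := R) s := by
  classical
  intro m hm
  rw [coeff_X, if_neg]
  intro h
  have := hm j hj
  rw [h] at this
  simp at this

theorem span_X_le_vanishIdeal (s : Set σ) :
    Ideal.span ((fun j => (X j : MvPowerSeries σ R)) '' s) ≤ vanishIdeal (R := R) s := by
  rw [Ideal.span_le]
  rintro _ ⟨j, hj, rfl⟩
  exact X_mem_vanishIdeal hj

theorem vanishIdeal_le_span_X (s : Finset σ) :
    vanishIdeal (R := R) (s : Set σ) ≤
      Ideal.span ((fun j => (X j : MvPowerSeries σ R)) '' (s : Set σ)) := by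
  classical
  induction s using Finset.induction_on with
  | empty =>
    intro f hf
    have : f = 0 := by
      ext m
      rw [hf m (by simp)]
      simp
    rw [this]
    exact zero_mem _
  | insert j s hjs ih =>
    intro f hf
    -- the part of `f` not involving `X j`
    let h : MvPowerSeries σ R := fun m => if m j = 0 then coeff m f else 0
    have hcoeff : ∀ m, coeff m h = if m j = 0 then coeff m f else 0 := fun m => rfl
    have hh : h ∈ vanishIdeal (R := R) (s : Set σ) := by
      intro m hm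
      rw [hcoeff]
      split_ifs with hmj
      · apply hf m
        intro j' hj'
        rw [Finset.coe_insert, Set.mem_insert_iff] at hj'
        rcases hj' with rfl | hj'
        · exact hmj
        · exact hm j' hj'
      · rfl
    have hdvd : (X j : MvPowerSeries σ R) ∣ f - h := by
      rw [X_dvd_iff]
      intro m hmj
      rw [map_sub, hcoeff, if_pos hmj, sub_self]
    obtain ⟨g, hg⟩ := hdvd
    have hf' : f = X j * g + h := by rw [← hg]; ring
    rw [hf']
    refine add_mem ?_ ?_
    · refine Ideal.mul_mem_right _ _ (Ideal.subset_span ⟨j, ?_, rfl⟩)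
      simp
    · refine Ideal.span_mono ?_ (ih hh)
      apply Set.image_mono
      simp

theorem span_X_eq_vanishIdeal (s : Finset σ) :
    Ideal.span ((fun j => (X j : MvPowerSeries σ R)) '' (s : Set σ)) =
      vanishIdeal (R := R) (s : Set σ) :=
  le_antisymm (span_X_le_vanishIdeal _) (vanishIdeal_le_span_X s)

theorem X_mul_mem_vanishIdeal_iff {s : Set σ} {j : σ} (hj : j ∉ s) {f : MvPowerSeries σ R} :
    X j * f ∈ vanishIdeal (R := R) s ↔ f ∈ vanishIdeal (R := R) s := by
  classical
  constructor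
  · intro h m hm
    have h1 := h (m + Finsupp.single j 1) (by
      intro j' hj'
      have hne : j ≠ j' := fun e => hj (e ▸ hj')
      simp [Finsupp.add_apply, hm j' hj', Finsupp.single_eq_of_ne' hne])
    rw [X_def, add_comm, coeff_add_monomial_mul, one_mul] at h1
    exact h1
  · intro h
    exact Ideal.mul_mem_left _ _ h

theorem mem_vanishIdeal_univ {f : MvPowerSeries σ R} :
    f ∈ vanishIdeal (R := R) (Set.univ : Set σ) ↔ constantCoeff f = 0 := by
  rw [mem_vanishIdeal, ← coeff_zero_eq_constantCoeff_apply]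
  constructor
  · intro h
    exact h 0 (by simp)
  · intro h m hm
    have : m = 0 := by
      ext j
      simpa using hm j (Set.mem_univ j)
    rw [this, h]

end Fermat.Agent.S57

namespace Fermat.Agent.S57

open MvPowerSeries RingTheory.Sequence

variable {σ : Type*} {R : Type*} [CommRing R]

theorem ofList_map_X_smul_top (l : List σ) :
    (Ideal.ofList (l.map (fun j => (X j : MvPowerSeries σ R))) • ⊤ :
        Submodule (MvPowerSeries σ R) (MvPowerSeries σ R)) =
      vanishIdeal (R := R) {j | j ∈ l} := by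
  classical
  rw [smul_eq_mul, Ideal.mul_top]
  have h1 : {r | r ∈ l.map (fun j => (X j : MvPowerSeries σ R))} =
      (fun j => (X j : MvPowerSeries σ R)) '' ((l.toFinset : Finset σ) : Set σ) := by
    ext x
    simp
  have h2 : ({j | j ∈ l} : Set σ) = ((l.toFinset : Finset σ) : Set σ) := by
    ext x
    simp
  rw [Ideal.ofList, h1, h2, span_X_eq_vanishIdeal]

theorem isWeaklyRegular_map_X (l : List σ) (hl : l.Nodup) :
    IsWeaklyRegular (MvPowerSeries σ R) (l.map (fun j => (X j : MvPowerSeries σ R))) := by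
  refine ⟨fun i hi => ?_⟩
  rw [List.length_map] at hi
  rw [← List.map_take, ofList_map_X_smul_top, isSMulRegular_quotient_iff_mem_of_smul_mem]
  intro f hf
  rw [List.getElem_map, smul_eq_mul] at hf
  refine (X_mul_mem_vanishIdeal_iff ?_).mp hf
  intro hmem
  simp only [Set.mem_ofPred_eq] at hmem
  -- `l[i] ∈ l.take i` contradicts `Nodup`
  rw [List.mem_take_iff_getElem] at hmem
  obtain ⟨k, hk, hkk⟩ := hmem
  have hk' : k < i := (lt_min_iff.mp hk).1
  have := (List.Nodup.getElem_inj_iff hl (hi := by omega) (hj := hi)).mp hkk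
  omega

end Fermat.Agent.S57

namespace Fermat.Agent.S57

open MvPowerSeries RingTheory.Sequence

variable {R : Type*} [CommRing R]

/-- The standard parameter sequence `X 0, …, X (r-1), ϖ` of `R⟦X₁,…,X_r⟧`. -/
noncomputable def stdSeq (r : ℕ) (ϖ : R) : List (MvPowerSeries (Fin r) R) :=
  (List.finRange r).map (fun j => (X j : MvPowerSeries (Fin r) R)) ++ [C ϖ]

theorem stdSeq_length (r : ℕ) (ϖ : R) : (stdSeq r ϖ).length = r + 1 := by
  simp [stdSeq]

theorem ofList_finRange_map_X_smul_top (r : ℕ) :
    (Ideal.ofList ((List.finRange r).map (fun j => (X j : MvPowerSeries (Fin r) R))) • ⊤ :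
        Submodule (MvPowerSeries (Fin r) R) (MvPowerSeries (Fin r) R)) =
      vanishIdeal (R := R) (Set.univ : Set (Fin r)) := by
  rw [ofList_map_X_smul_top]
  congr 1
  ext j
  simp

theorem isWeaklyRegular_stdSeq (r : ℕ) {ϖ : R} (hϖ : IsSMulRegular R ϖ) :
    IsWeaklyRegular (MvPowerSeries (Fin r) R) (stdSeq r ϖ) := by
  rw [stdSeq, isWeaklyRegular_append_iff]
  refine ⟨isWeaklyRegular_map_X _ (List.nodup_finRange r), ?_⟩
  rw [isWeaklyRegular_singleton_iff, ofList_finRange_map_X_smul_top,
    isSMulRegular_quotient_iff_mem_of_smul_mem]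
  intro f hf
  rw [mem_vanishIdeal_univ] at hf ⊢
  rw [smul_eq_mul, map_mul, constantCoeff_C] at hf
  exact hϖ (by simpa using hf)

/-- The ideal generated by the standard sequence is the kernel of
`R⟦X⟧ → R → R ⧸ (ϖ)`. -/
theorem mem_ofList_stdSeq (r : ℕ) (ϖ : R) (f : MvPowerSeries (Fin r) R) :
    f ∈ Ideal.ofList (stdSeq r ϖ) ↔ constantCoeff f ∈ Ideal.span {ϖ} := by
  have h0 : Ideal.ofList ((List.finRange r).map (fun j => (X j : MvPowerSeries (Fin r) R))) =
      vanishIdeal (R := R) (Set.univ : Set (Fin r)) := by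
    have := ofList_finRange_map_X_smul_top (R := R) r
    rwa [smul_eq_mul, Ideal.mul_top] at this
  rw [stdSeq, Ideal.ofList_append, Ideal.ofList_singleton, h0]
  constructor
  · intro hf
    obtain ⟨g, hg, h, hh, rfl⟩ := Submodule.mem_sup.mp hf
    rw [map_add, mem_vanishIdeal_univ.mp hg, zero_add]
    obtain ⟨c, rfl⟩ := Ideal.mem_span_singleton'.mp hh
    rw [map_mul, constantCoeff_C]
    exact Ideal.mul_mem_left _ _ (Ideal.mem_span_singleton_self ϖ)
  · intro hf
    obtain ⟨c, hc⟩ := Ideal.mem_span_singleton'.mp hf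
    have : f = (f - C (constantCoeff f)) + C c * C ϖ := by
      rw [← map_mul, hc]; ring
    rw [this]
    refine Submodule.add_mem_sup ?_ (Ideal.mul_mem_left _ _ (Ideal.mem_span_singleton_self _))
    rw [mem_vanishIdeal_univ, map_sub, constantCoeff_C, sub_self]

end Fermat.Agent.S57

namespace Fermat.Agent.S57

open MvPowerSeries RingTheory.Sequence IsLocalRing

variable {R : Type*} [CommRing R] [IsLocalRing R]

theorem mem_maximalIdeal_mvPowerSeries {σ : Type*} (f : MvPowerSeries σ R) :
    f ∈ maximalIdeal (MvPowerSeries σ R) ↔ constantCoeff f ∈ maximalIdeal R := by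
  rw [mem_maximalIdeal, mem_maximalIdeal, mem_nonunits_iff, mem_nonunits_iff,
    MvPowerSeries.isUnit_iff_constantCoeff]

theorem ofList_stdSeq_eq_maximalIdeal (r : ℕ) {ϖ : R}
    (hϖ : Ideal.span {ϖ} = maximalIdeal R) :
    Ideal.ofList (stdSeq r ϖ) = maximalIdeal (MvPowerSeries (Fin r) R) := by
  ext f
  rw [mem_ofList_stdSeq, hϖ, mem_maximalIdeal_mvPowerSeries]

theorem stdSeq_subset_maximalIdeal (r : ℕ) {ϖ : R}
    (hϖ : Ideal.span {ϖ} = maximalIdeal R) :
    ∀ x ∈ stdSeq r ϖ, x ∈ maximalIdeal (MvPowerSeries (Fin r) R) := by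
  intro x hx
  rw [← ofList_stdSeq_eq_maximalIdeal r hϖ]
  exact Ideal.subset_span hx

theorem isRegular_stdSeq (r : ℕ) {ϖ : R} (hreg : IsSMulRegular R ϖ)
    (hϖ : Ideal.span {ϖ} = maximalIdeal R) :
    IsRegular (MvPowerSeries (Fin r) R) (stdSeq r ϖ) := by
  refine ⟨isWeaklyRegular_stdSeq r hreg, ?_⟩
  rw [smul_eq_mul, Ideal.mul_top, ofList_stdSeq_eq_maximalIdeal r hϖ]
  exact (Ideal.IsMaximal.ne_top inferInstance).symm

end Fermat.Agent.S57
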