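import Mathlib
import Fermat.Agent.S57.MvPSRegular

set_option autoImplicit false

universe u

namespace Fermat.Agent.S57

open CategoryTheory IsLocalRing RingTheory.Sequence

variable {S : Type u} [CommRing S]

/-- Over a local ring, if the residue field has projective dimension `< n`, so does every
module of finite length. -/
theorem hasProjectiveDimensionLT_of_isFiniteLength [IsLocalRing S] (n : ℕ)
    (hκ : HasProjectiveDimensionLT (ModuleCat.of S (S ⧸ maximalIdeal S)) n)
    {Q : Type u} [AddCommGroup Q] [Module S Q] (hQ : IsFiniteLength S Q) :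
    HasProjectiveDimensionLT (ModuleCat.of S Q) n := by
  induction hQ with
  | @of_subsingleton M _ _ _ =>
    have h0 : Limits.IsZero (ModuleCat.of S M) :=
      ModuleCat.isZero_of_subsingleton _
    have := h0.hasProjectiveDimensionLT_zero
    exact hasProjectiveDimensionLT_of_ge _ 0 n (Nat.zero_le n)
  | @of_simple_quotient M _ _ N hsimple hN ih =>
    obtain ⟨m, hm, ⟨e⟩⟩ := isSimpleModule_iff_quot_maximal.mp hsimple
    have hm' : m = maximalIdeal S := IsLocalRing.eq_maximalIdeal hm
    subst hm'
    have h3 : HasProjectiveDimensionLT (ModuleCat.of S (M ⧸ N)) n :=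
      hasProjectiveDimensionLT_of_iso (e.symm.toModuleIso) n
    have hS : (N.mkQ).shortComplexKer.ShortExact :=
      LinearMap.shortExact_shortComplexKer N.mkQ_surjective
    have h1 : HasProjectiveDimensionLT (ModuleCat.of S (LinearMap.ker N.mkQ)) n := by
      have e1 : N ≃ₗ[S] LinearMap.ker N.mkQ := LinearEquiv.ofEq _ _ (Submodule.ker_mkQ N).symm
      exact hasProjectiveDimensionLT_of_iso (e1.toModuleIso) n
    exact hS.hasProjectiveDimensionLT_X₂ n h1 h3


/-- If a regular sequence generates the maximal ideal of a Noetherian local ring, the residue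
field has projective dimension `≤` its length. -/
theorem hasProjectiveDimensionLE_residueField [IsLocalRing S] [IsNoetherianRing S]
    (rs : List S) (hreg : IsRegular S rs) (hmax : Ideal.ofList rs = maximalIdeal S) :
    HasProjectiveDimensionLE (ModuleCat.of S (S ⧸ maximalIdeal S)) rs.length := by
  have mem_max : ∀ x ∈ rs, x ∈ maximalIdeal S := fun x hx => by
    rw [← hmax]; exact Ideal.subset_span hx
  have h1 := ModuleCat.projectiveDimension_quotient_eq_add_length_of_isWeaklyRegular
    (ModuleCat.of S S) rs hreg.toIsWeaklyRegular mem_max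
  have hproj : Projective (ModuleCat.of S S) :=
    (IsProjective.iff_projective S).mp inferInstance
  have hnt : Nontrivial (ModuleCat.of S S) := inferInstanceAs (Nontrivial S)
  rw [ModuleCat.projectiveDimension_eq_zero_of_projective (ModuleCat.of S S), zero_add] at h1
  have e : (S ⧸ (Ideal.ofList rs • ⊤ : Submodule S S)) ≃ₗ[S] (S ⧸ maximalIdeal S) :=
    Submodule.quotEquivOfEq _ _ (by rw [smul_eq_mul, Ideal.mul_top, hmax])
  rw [← projectiveDimension_le_iff, ← projectiveDimension_eq_of_iso e.toModuleIso]
  exact h1.le

/-- **Maximal Cohen–Macaulay modules over a regular local ring are free** (in the form we need):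
`S` Noetherian local whose maximal ideal is generated by a regular sequence `rs`; `N` a finite
`S`-module admitting a weakly regular sequence `ys` in the maximal ideal, of the same length as
`rs`, such that `N ⧸ (ys) N` has finite length.  Then `N` is free. -/
theorem free_of_isWeaklyRegular_of_isFiniteLength [IsLocalRing S] [IsNoetherianRing S]
    (rs : List S) (hreg : IsRegular S rs) (hmax : Ideal.ofList rs = maximalIdeal S)
    {N : Type u} [AddCommGroup N] [Module S N] [Module.Finite S N]
    (ys : List S) (hys : IsWeaklyRegular N ys) (hmem : ∀ y ∈ ys, y ∈ maximalIdeal S)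
    (hlen : rs.length ≤ ys.length)
    (hfl : IsFiniteLength S (N ⧸ (Ideal.ofList ys • ⊤ : Submodule S N))) :
    Module.Free S N := by
  rcases subsingleton_or_nontrivial N with hN | hN
  · exact Module.Free.of_subsingleton S N
  have hκ := hasProjectiveDimensionLE_residueField rs hreg hmax
  have hQ : HasProjectiveDimensionLT
      (ModuleCat.of S (N ⧸ (Ideal.ofList ys • ⊤ : Submodule S N))) (rs.length + 1) :=
    hasProjectiveDimensionLT_of_isFiniteLength _ hκ hfl
  have h1 := ModuleCat.projectiveDimension_quotient_eq_add_length_of_isWeaklyRegular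
    (ModuleCat.of S N) ys hys hmem
  have h2 : projectiveDimension (ModuleCat.of S (N ⧸ (Ideal.ofList ys • ⊤ : Submodule S N))) ≤
      (rs.length : ℕ) := (projectiveDimension_le_iff _ _).mpr hQ
  rw [h1] at h2
  have h3 : projectiveDimension (ModuleCat.of S N) ≤ (0 : ℕ) := by
    have h4 : projectiveDimension (ModuleCat.of S N) + (ys.length : ℕ) ≤ (0 : ℕ) + (ys.length : ℕ) := by
      refine h2.trans ?_
      rw [Nat.cast_zero, zero_add]
      exact_mod_cast hlen
    exact (ENat.WithBot.add_le_add_natCast_right_iff).mp h4
  have h5 : Projective (ModuleCat.of S N) := by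
    rw [projective_iff_hasProjectiveDimensionLE_zero]
    exact (projectiveDimension_le_iff _ _).mp h3
  have h6 : Module.Projective S N := (IsProjective.iff_projective N).mpr h5
  exact Module.free_of_flat_of_isLocalRing

end Fermat.Agent.S57
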