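import Fermat.Statements.S57
import Fermat.Agent.S57.PdFinLength

set_option autoImplicit false

namespace Fermat.Agent.S57

open MvPowerSeries RingTheory.Sequence IsLocalRing

section Level

variable {𝒪 : Type} [CommRing 𝒪] {r : ℕ} {R : Type} [CommRing R] [Algebra 𝒪 R]
  {M : Type} [AddCommGroup M] [Module R M]
  (L : Algebra.PatchingLevel 𝒪 r R M ⊥)

/-- The `φ`-twisted coordinate map `A^d → N`. -/
noncomputable def coordHom : (Fin L.d → MvPowerSeries (Fin r) 𝒪) →+ L.N where
  toFun c := ∑ i, L.φ (c i) • L.b i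
  map_zero' := by simp
  map_add' c c' := by
    simp only [Pi.add_apply, map_add, add_smul, Finset.sum_add_distrib]

theorem coordHom_apply (c : Fin L.d → MvPowerSeries (Fin r) 𝒪) :
    coordHom L c = ∑ i, L.φ (c i) • L.b i := rfl

theorem coordHom_smul (a : MvPowerSeries (Fin r) 𝒪) (c : Fin L.d → MvPowerSeries (Fin r) 𝒪) :
    coordHom L (a • c) = L.φ a • coordHom L c := by
  simp only [coordHom_apply, Pi.smul_apply, smul_eq_mul, map_mul, Finset.smul_sum, mul_smul]

theorem coordHom_bijective : Function.Bijective (coordHom L) := by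
  constructor
  · rw [injective_iff_map_eq_zero]
    intro c hc
    have := (L.b_rel c).mp hc
    ext1 i
    simpa using this i
  · intro x
    obtain ⟨c, hc⟩ := L.b_span x
    exact ⟨c, hc.symm⟩

/-- The `φ`-semilinear additive equivalence `A^d ≃+ N`. -/
noncomputable def coordEquiv : (Fin L.d → MvPowerSeries (Fin r) 𝒪) ≃+ L.N :=
  AddEquiv.ofBijective (coordHom L) (coordHom_bijective L)

theorem coordEquiv_smul (a : MvPowerSeries (Fin r) 𝒪)
    (c : Fin L.d → MvPowerSeries (Fin r) 𝒪) :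
    coordEquiv L (a • c) = L.φ a • coordEquiv L c :=
  coordHom_smul L a c

/-- A weakly regular sequence on `A` is weakly regular on `A^d`. -/
theorem isWeaklyRegular_pi {A : Type*} [CommRing A] (d : ℕ) (rs : List A)
    (h : IsWeaklyRegular A rs) : IsWeaklyRegular (Fin d → A) rs := by
  have h1 : IsWeaklyRegular (TensorProduct A (Fin d → A) A) rs :=
    h.isWeaklyRegular_lTensor (M₂ := Fin d → A)
  exact ((TensorProduct.rid A (Fin d → A)).isWeaklyRegular_congr rs).mp h1

theorem isWeaklyRegular_map_phi (rs : List (MvPowerSeries (Fin r) 𝒪))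
    (h : IsWeaklyRegular (MvPowerSeries (Fin r) 𝒪) rs) :
    IsWeaklyRegular L.N (rs.map L.φ) := by
  refine ((coordEquiv L).isWeaklyRegular_congr ?_).mp (isWeaklyRegular_pi L.d rs h)
  rw [List.forall₂_map_right_iff, List.forall₂_same]
  intro a _ c
  exact coordEquiv_smul L a c

theorem phi_C (a : 𝒪) : L.φ (C a) = C a := by
  rw [c_eq_algebraMap]
  exact L.φ.commutes a

theorem finite_N : Module.Finite (MvPowerSeries (Fin r) 𝒪) L.N := by
  classical
  refine ⟨⟨Finset.univ.image L.b, ?_⟩⟩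
  rw [eq_top_iff]
  rintro x -
  obtain ⟨c, rfl⟩ := L.b_span x
  refine Submodule.sum_mem _ fun i _ => Submodule.smul_mem _ _ (Submodule.subset_span ?_)
  simp

theorem phi_X_mem_maximalIdeal [IsLocalRing 𝒪] [Nontrivial M] (i : Fin r) :
    L.φ (X i) ∈ maximalIdeal (MvPowerSeries (Fin r) 𝒪) := by
  have : Nontrivial R := Module.nontrivial R M
  rw [mem_maximalIdeal, mem_nonunits_iff]
  intro hu
  have h1 := hu.map L.ψ
  rw [L.ψ_φ_X] at h1
  exact not_isUnit_zero h1

theorem map_phi_stdSeq_mem_maximalIdeal [IsLocalRing 𝒪] [Nontrivial M] {ϖ : 𝒪}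
    (hϖ : ϖ ∈ maximalIdeal 𝒪) :
    ∀ y ∈ (stdSeq r ϖ).map L.φ, y ∈ maximalIdeal (MvPowerSeries (Fin r) 𝒪) := by
  intro y hy
  rw [stdSeq, List.map_append, List.mem_append] at hy
  rcases hy with hy | hy
  · rw [List.map_map, List.mem_map] at hy
    obtain ⟨i, -, rfl⟩ := hy
    exact phi_X_mem_maximalIdeal L i
  · rw [List.map_singleton, List.mem_singleton] at hy
    rw [hy, phi_C, mem_maximalIdeal_mvPowerSeries, constantCoeff_C]
    exact hϖ

/-- `φ c ≡ c(0)` modulo the ideal generated by the `φ X_i`. -/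
theorem phi_sub_C_mem (ϖ : 𝒪) (c : MvPowerSeries (Fin r) 𝒪) :
    L.φ c - C (constantCoeff c) ∈ Ideal.ofList ((stdSeq r ϖ).map L.φ) := by
  have h1 : c - C (constantCoeff c) ∈
      Ideal.ofList ((List.finRange r).map (fun j => (X j : MvPowerSeries (Fin r) 𝒪))) := by
    have h2 := ofList_finRange_map_X_smul_top (R := 𝒪) r
    rw [smul_eq_mul, Ideal.mul_top] at h2
    rw [h2, mem_vanishIdeal_univ, map_sub, constantCoeff_C, sub_self]
  have h3 : (L.φ : MvPowerSeries (Fin r) 𝒪 →+* MvPowerSeries (Fin r) 𝒪) (c - C (constantCoeff c)) ∈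
      Ideal.map (L.φ : MvPowerSeries (Fin r) 𝒪 →+* MvPowerSeries (Fin r) 𝒪)
        (Ideal.ofList ((List.finRange r).map
        (fun j => (X j : MvPowerSeries (Fin r) 𝒪)))) := Ideal.mem_map_of_mem _ h1
  rw [Ideal.map_ofList, RingHom.coe_coe, map_sub, phi_C] at h3
  refine Ideal.span_mono ?_ h3
  intro y hy
  simp only [Set.mem_ofPred_eq] at hy ⊢
  rw [stdSeq, List.map_append, List.mem_append]
  exact Or.inl hy

theorem C_mem_ofList_map_phi_stdSeq (ϖ : 𝒪) {a : 𝒪} (ha : a ∈ Ideal.span {ϖ}) :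
    (C a : MvPowerSeries (Fin r) 𝒪) ∈ Ideal.ofList ((stdSeq r ϖ).map L.φ) := by
  obtain ⟨c, rfl⟩ := Ideal.mem_span_singleton'.mp ha
  rw [map_mul]
  refine Ideal.mul_mem_left _ _ (Ideal.subset_span ?_)
  simp only [Set.mem_ofPred_eq]
  rw [stdSeq, List.map_append, List.mem_append]
  refine Or.inr ?_
  rw [List.map_singleton, List.mem_singleton, phi_C]

end Level

theorem isArtinian_of_finite_of_forall_smul_eq_zero {𝒪 Q : Type*} [CommRing 𝒪] [AddCommGroup Q]
    [Module 𝒪 Q] [Module.Finite 𝒪 Q] (I : Ideal 𝒪) [I.IsMaximal]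
    (h : ∀ a ∈ I, ∀ x : Q, a • x = 0) : IsArtinian 𝒪 Q := by
  have hI : Module.IsTorsionBySet 𝒪 Q (I : Set 𝒪) := fun x a => h a.1 a.2 x
  let _ : Module (𝒪 ⧸ I) Q := hI.module
  let _ : Field (𝒪 ⧸ I) := Ideal.Quotient.field I
  have : Module.Finite (𝒪 ⧸ I) Q := Module.Finite.of_restrictScalars_finite 𝒪 (𝒪 ⧸ I) Q
  have : IsArtinian (𝒪 ⧸ I) Q := inferInstance
  exact isArtinian_of_surjective_algebraMap (R := 𝒪 ⧸ I) (S := 𝒪) Ideal.Quotient.mk_surjective

section Level2

variable {𝒪 : Type} [CommRing 𝒪] [IsDomain 𝒪] [IsDiscreteValuationRing 𝒪]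
  {r : ℕ} {R : Type} [CommRing R] [Algebra 𝒪 R]
  {M : Type} [AddCommGroup M] [Module R M]
  (L : Algebra.PatchingLevel 𝒪 r R M ⊥)

theorem isFiniteLength_quot {ϖ : 𝒪} (hϖ : Ideal.span {ϖ} = maximalIdeal 𝒪) :
    IsFiniteLength (MvPowerSeries (Fin r) 𝒪)
      (L.N ⧸ (Ideal.ofList ((stdSeq r ϖ).map L.φ) • ⊤ :
        Submodule (MvPowerSeries (Fin r) 𝒪) L.N)) := by
  have hfin := finite_N L
  rw [isFiniteLength_iff_isNoetherian_isArtinian]
  refine ⟨inferInstance, ?_⟩
  let _ : Module 𝒪 (L.N ⧸ (Ideal.ofList ((stdSeq r ϖ).map L.φ) • ⊤ :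
        Submodule (MvPowerSeries (Fin r) 𝒪) L.N)) :=
    Module.compHom _ (algebraMap 𝒪 (MvPowerSeries (Fin r) 𝒪))
  have htower : IsScalarTower 𝒪 (MvPowerSeries (Fin r) 𝒪)
      (L.N ⧸ (Ideal.ofList ((stdSeq r ϖ).map L.φ) • ⊤ :
        Submodule (MvPowerSeries (Fin r) 𝒪) L.N)) :=
    IsScalarTower.of_algebraMap_smul fun _ _ => rfl
  apply isArtinian_of_tower 𝒪
  have hsmul : ∀ (a : 𝒪) (n : L.N),
      a • (Submodule.Quotient.mk n : L.N ⧸ (Ideal.ofList ((stdSeq r ϖ).map L.φ) • ⊤ :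
        Submodule (MvPowerSeries (Fin r) 𝒪) L.N)) =
      Submodule.Quotient.mk ((C a : MvPowerSeries (Fin r) 𝒪) • n) := fun a n => rfl
  have hfin' : Module.Finite 𝒪 (L.N ⧸ (Ideal.ofList ((stdSeq r ϖ).map L.φ) • ⊤ :
        Submodule (MvPowerSeries (Fin r) 𝒪) L.N)) := by
    refine Module.Finite.of_surjective
      (Fintype.linearCombination 𝒪 (fun i => (Submodule.Quotient.mk (L.b i) :
        L.N ⧸ (Ideal.ofList ((stdSeq r ϖ).map L.φ) • ⊤ :
        Submodule (MvPowerSeries (Fin r) 𝒪) L.N)))) ?_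
    intro x
    obtain ⟨n, rfl⟩ := Submodule.Quotient.mk_surjective _ x
    obtain ⟨c, rfl⟩ := L.b_span n
    refine ⟨fun i => constantCoeff (c i), ?_⟩
    rw [Fintype.linearCombination_apply]
    simp only [hsmul]
    simp only [← Submodule.mkQ_apply]
    rw [← map_sum, Submodule.mkQ_apply, Submodule.mkQ_apply, eq_comm, Submodule.Quotient.eq,
      ← Finset.sum_sub_distrib]
    refine Submodule.sum_mem _ fun i _ => ?_
    rw [← sub_smul]
    exact Submodule.smul_mem_smul (phi_sub_C_mem L ϖ (c i)) Submodule.mem_top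
  refine isArtinian_of_finite_of_forall_smul_eq_zero (maximalIdeal 𝒪) ?_
  intro a ha x
  obtain ⟨n, rfl⟩ := Submodule.Quotient.mk_surjective _ x
  rw [hsmul, Submodule.Quotient.mk_eq_zero]
  rw [← hϖ] at ha
  exact Submodule.smul_mem_smul (C_mem_ofList_map_phi_stdSeq L ϖ ha) Submodule.mem_top

theorem free_N [Nontrivial M] : Module.Free (MvPowerSeries (Fin r) 𝒪) L.N := by
  obtain ⟨ϖ, hirr⟩ := IsDiscreteValuationRing.exists_irreducible 𝒪
  have hϖ : Ideal.span {ϖ} = maximalIdeal 𝒪 := hirr.maximalIdeal_eq.symm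
  have hreg : IsSMulRegular 𝒪 ϖ := by
    intro a b hab
    exact mul_left_cancel₀ hirr.ne_zero hab
  have hfin := finite_N L
  have hmem : ϖ ∈ maximalIdeal 𝒪 := hϖ ▸ Ideal.mem_span_singleton_self ϖ
  exact free_of_isWeaklyRegular_of_isFiniteLength (stdSeq r ϖ) (isRegular_stdSeq r hreg hϖ)
    (ofList_stdSeq_eq_maximalIdeal r hϖ) ((stdSeq r ϖ).map L.φ)
    (isWeaklyRegular_map_phi L _ (isWeaklyRegular_stdSeq r hreg))
    (map_phi_stdSeq_mem_maximalIdeal L hmem) (by simp) (isFiniteLength_quot L hϖ)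

end Level2

theorem repr_mem_of_mem_smul_top {A N ι : Type*} [CommRing A] [AddCommGroup N] [Module A N]
    (B : Module.Basis ι A N) (I : Ideal A) {y : N} (hy : y ∈ I • (⊤ : Submodule A N)) (i : ι) :
    B.repr y i ∈ I := by
  refine Submodule.smul_induction_on (p := fun y => B.repr y i ∈ I) hy ?_ ?_
  · intro a ha n _
    rw [map_smul, Finsupp.smul_apply, smul_eq_mul]
    exact Ideal.mul_mem_right _ _ ha
  · intro x y hx hy
    rw [map_add, Finsupp.add_apply]
    exact add_mem hx hy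

theorem descent_wiring {A R N M : Type*} [CommRing A] [CommRing R] [AddCommGroup N] [Module A N]
    [AddCommGroup M] [Module R M] [Nontrivial M] [Module.Free A N]
    (ψ : A →+* R) (hψ : Function.Surjective ψ) (I : Ideal A) (hI : I ≤ RingHom.ker ψ)
    (π : N →+ M) (hπs : ∀ (f : A) (x : N), π (f • x) = ψ f • π x) (hπ : Function.Surjective π)
    (hker : ∀ x : N, π x = 0 ↔ x ∈ I • (⊤ : Submodule A N)) :
    Module.Free R M ∧ Module.annihilator R M = ⊥ ∧ RingHom.ker ψ = I := by
  classical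
  let B := Module.Free.chooseBasis A N
  have hNnt : Nontrivial N := by
    by_contra hN
    rw [not_nontrivial_iff_subsingleton] at hN
    obtain ⟨m, hm⟩ := exists_ne (0 : M)
    obtain ⟨n, rfl⟩ := hπ m
    exact hm (by rw [Subsingleton.elim n 0, map_zero])
  -- kernel
  have hkerψ : RingHom.ker ψ = I := by
    refine le_antisymm ?_ hI
    intro f hf
    obtain ⟨i₀⟩ : Nonempty (Module.Free.ChooseBasisIndex A N) := inferInstance
    have h1 : π (f • B i₀) = 0 := by
      rw [hπs, (RingHom.mem_ker).mp hf, zero_smul]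
    have h2 := repr_mem_of_mem_smul_top B I ((hker _).mp h1) i₀
    rwa [map_smul, Finsupp.smul_apply, B.repr_self, Finsupp.single_eq_same, smul_eq_mul,
      mul_one] at h2
  -- π of a finite sum
  have hπsum : ∀ (s : Finset (Module.Free.ChooseBasisIndex A N))
      (a : Module.Free.ChooseBasisIndex A N → A),
      π (∑ i ∈ s, a i • B i) = ∑ i ∈ s, ψ (a i) • π (B i) := by
    intro s a
    rw [map_sum]
    exact Finset.sum_congr rfl fun i _ => hπs _ _
  have hli : LinearIndependent R (fun i => π (B i)) := by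
    rw [linearIndependent_iff']
    intro s g hg i hi
    choose a ha using fun j => hψ (g j)
    have h1 : π (∑ j ∈ s, a j • B j) = 0 := by
      rw [hπsum, ← hg]
      exact Finset.sum_congr rfl fun j _ => by rw [ha]
    have h2 := repr_mem_of_mem_smul_top B I ((hker _).mp h1) i
    have h3 : B.repr (∑ j ∈ s, a j • B j) i = a i := by
      rw [map_sum, Finsupp.finsetSum_apply]
      simp only [map_smul, Finsupp.smul_apply, B.repr_self, smul_eq_mul]
      rw [Finset.sum_eq_single i]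
      · simp
      · intro j _ hji
        simp [Finsupp.single_eq_of_ne' hji]
      · intro h; exact absurd hi h
    rw [h3] at h2
    rw [← ha i]
    exact hI h2
  have hsp : ⊤ ≤ Submodule.span R (Set.range fun i => π (B i)) := by
    rintro m -
    obtain ⟨n, rfl⟩ := hπ m
    have h1 : n = ∑ i ∈ (B.repr n).support, (B.repr n) i • B i := by
      conv_lhs => rw [← B.linearCombination_repr n, Finsupp.linearCombination_apply]
      rfl
    rw [h1, hπsum]
    exact Submodule.sum_mem _ fun i _ =>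
      Submodule.smul_mem _ _ (Submodule.subset_span ⟨i, rfl⟩)
  have hfree : Module.Free R M := Module.Free.of_basis (Module.Basis.mk hli hsp)
  refine ⟨hfree, ?_, hkerψ⟩
  exact Module.annihilator_eq_bot.mpr inferInstance

end Fermat.Agent.S57
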